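import Fermat.Agent.S30x.Rel.H25_RelAbs
import Fermat.Agent.S30x.GALn.H5_Pow
import Fermat.Agent.S30x.Cyc.H27_CycAdic
import Fermat.Agent.S30x.Asm.Defs
import Fermat.Agent.S42x.Gal.H19_StHeckeGal

/-!
# W8 (S30), leaf (E) [REL], the instance at `J₀(N)` (helper25)

`J = JZero N`, `M₀ = h18M p J O` (helper18), `ρ = h25Rho GQ p J O` the Galois action on `M₀`,
`X = h25Vec O κ w = ∑ j, w j ⊗ κ j`, `d = cycAdic p O hpO` (helper27).

* `h25_rel_inst` : from `StSpec N p` and a compatible system `κ` with integer Hecke matrices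
  `t ℓ` and a primitive eigenvector `w` (eigenvalues `c ℓ`): the function `a : G → O` with
  (NT) `X` is not torsion, (CC) `d c = -1`, (E1) `ρ g + d g • ρ g⁻¹ = a g` on the translates of
  `X`, (E2) `a σ = c ℓ`, `d σ = ℓ` at Frobenius elements, (E3) continuity of `a` and `d`,
  (IN) triviality of inertia: the inputs of `Asm.H10.h10_stAdic_of_rel`.
-/

set_option autoImplicit false
set_option linter.style.haveILetI false
set_option synthInstance.maxHeartbeats 400000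
set_option maxHeartbeats 400000

open ModularCurve Polynomial

noncomputable section

namespace Fermat.Agent.S30x.Rel.H25

open Fermat.Agent.S42x.Asm (GQ StDens)
open Fermat.Agent.S30x.Mod.H18
open Fermat.Agent.S30x.Cyc.H27 (cycAdic)

section Inst

variable (N : ℕ) [NeZero N]

/-- The Hecke operators on `J₀(N)` as additive endomorphisms, indexed by `ℕ`. -/
def h25T (ℓ : ℕ) : AddMonoid.End (JZero N) :=
  if h : ℓ.Prime then (heckeOperatorBar N ⟨ℓ, h⟩).toAddMonoidHom else 0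

theorem h25T_apply {ℓ : ℕ} (hℓ : ℓ.Prime) (x : JZero N) :
    h25T N ℓ x = heckeOperatorBar N ⟨ℓ, hℓ⟩ x := by
  have h1 : h25T N ℓ = (heckeOperatorBar N ⟨ℓ, hℓ⟩).toAddMonoidHom := dif_pos hℓ
  rw [h1]
  rfl

variable (p : ℕ) [Fact p.Prime] {O : Type} [CommRing O] [IsDomain O]
  [IsDiscreteValuationRing O] [IsAdicComplete (IsLocalRing.maximalIdeal O) O] [CharZero O]

omit [NeZero N] in
theorem h25_good (S : Finset ℕ) (hpS : p ∈ S) (hNS : ∀ q : ℕ, q.Prime → q ∣ N → q ∈ S)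
    {ℓ : ℕ} (hℓ : ℓ.Prime) (hℓS : ℓ ∉ S) : ¬ ℓ ∣ N * p ∧ ℓ ≠ p := by
  have h1 : ℓ ≠ p := fun h => hℓS (h ▸ hpS)
  refine ⟨fun h => ?_, h1⟩
  rcases (Nat.Prime.dvd_mul hℓ).mp h with h2 | h2
  · exact hℓS (hNS ℓ hℓ h2)
  · exact h1 ((Nat.prime_dvd_prime_iff_eq hℓ Fact.out).mp h2)

omit [IsDomain O] [IsDiscreteValuationRing O] [IsAdicComplete (IsLocalRing.maximalIdeal O) O]
  [CharZero O] in
/-- Inertia at `q ∤ N p` acts trivially on `M₀`. -/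
theorem h25_rel_inertia (hSpec : Fermat.Agent.S37x.Asm.StSpec N p) {q : ℕ} (hq : q.Prime)
    (hqN : ¬ q ∣ N) (hqp : q ≠ p) (A : ValuationSubring (AlgebraicClosure ℚ))
    (hA : A.LiesOverPrime q) (τ : GQ) (hτ : τ ∈ A.inertiaSubgroupIn ℚ) :
    h25Rho GQ p (JZero N) O τ = 1 := by
  have hp : p.Prime := Fact.out
  have hqNp : ¬ q ∣ N * p := by
    intro h
    rcases (Nat.Prime.dvd_mul hq).mp h with h2 | h2
    · exact hqN h2
    · exact hqp ((Nat.prime_dvd_prime_iff_eq hq hp).mp h2)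
  refine h25_inertia τ fun x hx => ?_
  exact Fermat.Agent.S30x.GALn.H5.h5n_inertia hSpec hq hqNp A hA τ hτ x hx

/-- **(E) [REL]**, the instance at `J₀(N)`. -/
theorem h25_rel_inst (hpO : (p : O) ∈ IsLocalRing.maximalIdeal O)
    (hSpec : Fermat.Agent.S37x.Asm.StSpec N p)
    (S : Finset ℕ) (hpS : p ∈ S) (hNS : ∀ q : ℕ, q.Prime → q ∣ N → q ∈ S)
    {r : ℕ} (κ : Fin r → h18Tate p (JZero N))
    (hind : ∀ c : Fin r → ℤ, ∑ j, c j • (κ j : ℕ → JZero N) 1 = 0 → ∀ j, (p : ℤ) ∣ c j)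
    (w : Fin r → O) (hw : ∃ j, IsUnit (w j))
    (c : ℕ → O) (t : ℕ → Matrix (Fin r) (Fin r) ℤ)
    (hT : ∀ (ℓ : ℕ) (hℓ : ℓ.Prime), ℓ ∉ S → ∀ (j : Fin r) (n : ℕ),
      heckeOperatorBar N ⟨ℓ, hℓ⟩ ((κ j : ℕ → JZero N) n)
        = ∑ i, t ℓ i j • (κ i : ℕ → JZero N) n)
    (hc : ∀ ℓ : ℕ, ℓ.Prime → ℓ ∉ S → ∀ i, ∑ j, ((t ℓ i j : ℤ) : O) * w j = c ℓ * w i) :
    ∃ a : GQ → O,
      (∀ s : O, s • h25Vec O κ w = 0 → s = 0) ∧
      cycAdic p O hpO complexConjugation = -1 ∧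
      (∀ g h : GQ,
        h25Rho GQ p (JZero N) O g (h25Rho GQ p (JZero N) O h (h25Vec O κ w))
          + ((cycAdic p O hpO g : Oˣ) : O)
            • h25Rho GQ p (JZero N) O g⁻¹ (h25Rho GQ p (JZero N) O h (h25Vec O κ w))
          = a g • h25Rho GQ p (JZero N) O h (h25Vec O κ w)) ∧
      (∀ ℓ : ℕ, ℓ.Prime → ℓ ∉ S →
        ∀ A : ValuationSubring (AlgebraicClosure ℚ), A.LiesOverPrime ℓ →
          ∀ σ : GQ, A.IsFrobeniusAt σ ℓ →
            a σ = c ℓ ∧ ((cycAdic p O hpO σ : Oˣ) : O) = (ℓ : O)) ∧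
      (∀ n : ℕ, ∃ K : IntermediateField ℚ (AlgebraicClosure ℚ), FiniteDimensional ℚ K ∧
        ∀ τ : GQ, (∀ x ∈ K, τ x = x) →
          ((cycAdic p O hpO τ : Oˣ) : O) - 1 ∈ IsLocalRing.maximalIdeal O ^ n ∧
            ∀ g : GQ, a (τ * g) - a g ∈ IsLocalRing.maximalIdeal O ^ n) ∧
      (∀ q : ℕ, q.Prime → ¬ q ∣ N → q ≠ p →
        ∀ A : ValuationSubring (AlgebraicClosure ℚ), A.LiesOverPrime q →
          ∀ τ ∈ A.inertiaSubgroupIn ℚ,
            (∀ h : GQ, h25Rho GQ p (JZero N) O τ (h25Rho GQ p (JZero N) O h (h25Vec O κ w))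
              = h25Rho GQ p (JZero N) O h (h25Vec O κ w)) ∧ cycAdic p O hpO τ = 1) := by
  classical
  have hp : p.Prime := Fact.out
  have hTG : ∀ ℓ : ℕ, ℓ.Prime → ℓ ∉ S → ∀ (g : GQ) (x : JZero N),
      h25T N ℓ (g • x) = g • h25T N ℓ x := by
    intro ℓ hℓ _ g x
    rw [h25T_apply N hℓ, h25T_apply N hℓ]
    exact Fermat.Agent.S42x.Gal.H19.stHeckeGal N ⟨ℓ, hℓ⟩ g x
  have hfrobJ : ∀ ℓ : ℕ, ℓ.Prime → ℓ ∉ S →
      ∀ A : ValuationSubring (AlgebraicClosure ℚ), A.LiesOverPrime ℓ →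
        ∀ σ : GQ, A.IsFrobeniusAt σ ℓ → ((cycAdic p O hpO σ : Oˣ) : O) = (ℓ : O) ∧
          ∀ x : JZero N, (∃ k : ℕ, p ^ k • x = 0) → σ • x + ℓ • σ⁻¹ • x = h25T N ℓ x := by
    intro ℓ hℓ hℓS A hA σ hσ
    obtain ⟨h1, h2⟩ := h25_good N p S hpS hNS hℓ hℓS
    refine ⟨Fermat.Agent.S30x.Cyc.H27.cycAdic_frobenius p O hpO hℓ h2 A hA σ hσ, fun x hx => ?_⟩
    rw [h25T_apply N hℓ]
    exact Fermat.Agent.S30x.GALn.H5.h5n_frob_inv hSpec hℓ h1 A hA σ hσ x hx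
  have hstab : ∀ n : ℕ, ∃ K : IntermediateField ℚ (AlgebraicClosure ℚ),
      FiniteDimensional ℚ K ∧ ∀ τ : GQ, (∀ a ∈ K, τ a = a) →
        (∀ (h : GQ) (j : Fin r),
          τ • h • (κ j : ℕ → JZero N) n = h • (κ j : ℕ → JZero N) n) ∧
          ((cycAdic p O hpO τ : Oˣ) : O) - 1 ∈ Ideal.span {(p : O) ^ n} := by
    intro n
    obtain ⟨K, hK, -, -, hroots, hfix, -⟩ :=
      Fermat.Agent.S30x.GALn.H5.h5n_level hSpec hp.ne_zero
        (fun j : Fin r => (κ j : ℕ → JZero N) n) (fun j => ⟨n, h18Tate_pow_smul (κ j) n⟩) n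
        (⊥ : IntermediateField ℚ (AlgebraicClosure ℚ))
    refine ⟨K, hK, fun τ hτ => ⟨fun h j => hfix τ hτ h j, ?_⟩⟩
    exact Fermat.Agent.S30x.Cyc.H27.cycAdic_sub_one_mem p O hpO n τ
      (fun ζ hζ => hτ ζ (hroots ζ hζ))
  have hT' : ∀ ℓ : ℕ, ℓ.Prime → ℓ ∉ S → ∀ (j : Fin r) (n : ℕ),
      h25T N ℓ ((κ j : ℕ → JZero N) n) = ∑ i, t ℓ i j • (κ i : ℕ → JZero N) n := by
    intro ℓ hℓ hℓS j n
    rw [h25T_apply N hℓ]
    exact hT ℓ hℓ hℓS j n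
  have key1 := @h25_rel_abs p _ (JZero N) _ _ O _ _ _ _ _ hpO (cycAdic p O hpO) S (h25T N) hTG
  have key2 := @key1 hfrobJ r κ
  have key3 := key2 hind
  have key4 := key3 w hw
  have key5 := key4 hstab c t
  have key6 := key5 hT'
  have key7 := key6 hc
  refine Exists.elim key7 fun a ha => ?_
  have hNT := ha.1
  have hE1 := ha.2.1
  have hE2 := ha.2.2.1
  have hE3 := ha.2.2.2
  refine ⟨a, hNT, ?_, hE1, ?_, hE3, ?_⟩
  · apply Units.ext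
    rw [Fermat.Agent.S30x.Cyc.H27.cycAdic_complexConjugation, Units.val_neg, Units.val_one]
  · intro ℓ hℓ hℓS A hA σ hσ
    exact ⟨hE2 ℓ hℓ hℓS A hA σ hσ, (hfrobJ ℓ hℓ hℓS A hA σ hσ).1⟩
  · intro q hq hqN hqp A hA τ hτ
    have h1 : h25Rho GQ p (JZero N) O τ = 1 := h25_rel_inertia N p hSpec hq hqN hqp A hA τ hτ
    refine ⟨fun h => ?_, Fermat.Agent.S30x.Cyc.H27.cycAdic_inertia p O hpO hq hqp A hA τ hτ⟩
    rw [h1]
    rfl

end Inst

end Fermat.Agent.S30x.Rel.H25
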