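import Mathlib
import Fermat.Agent.S42x.Asm.Defs

/-!
# W8 (S30), leaf (AD) = (E) [REL], abstract form (helper25)

* `dickson_rel` : Dickson's relation on a stable set of vectors: if `F y + δ F' y = c y` on `Y`
  (`F' = F⁻¹`), then `F ^ k y + δ ^ k F' ^ k y = D_k(c, δ) y` on `Y`, with
  `D_k = Polynomial.dickson 1 δ k`;
* `exists_trace_of_approx` : the limit argument: approximate relations modulo `I ^ n` for all `n`
  give an exact relation `ρ g y + d g • ρ g⁻¹ y = a g • y` on the translates of a primitive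
  vector;
* `rel_of_dens` : the relation for ALL `g` of `G = Gal(ℚ̄/ℚ)` from the relation at Frobenius
  elements, Frobenius density and the continuity of the action.
-/

set_option autoImplicit false
set_option linter.style.haveILetI false
set_option synthInstance.maxHeartbeats 400000
set_option maxHeartbeats 1000000

open Polynomial

noncomputable section

namespace Fermat.Agent.S30x.Rel.H25

open Fermat.Agent.S42x.Asm

/-! ### The `I`-adic filtration of a module -/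

section Filtration

variable {O : Type*} [CommRing O] {Y : Type*} [AddCommGroup Y] [Module O Y]

theorem fil_smul_mem (J : Ideal O) {r : O} (hr : r ∈ J) (y : Y) :
    r • y ∈ (J • ⊤ : Submodule O Y) :=
  Submodule.smul_mem_smul hr Submodule.mem_top

theorem fil_end_mem (J : Ideal O) (f : Module.End O Y) {y : Y}
    (hy : y ∈ (J • ⊤ : Submodule O Y)) : f y ∈ (J • ⊤ : Submodule O Y) := by
  have h1 : f y ∈ (J • ⊤ : Submodule O Y).map f := Submodule.mem_map_of_mem hy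
  rw [Submodule.map_smul''] at h1
  exact Submodule.smul_mono le_rfl le_top h1

theorem fil_mono (I : Ideal O) {m n : ℕ} (h : m ≤ n) :
    (I ^ n • ⊤ : Submodule O Y) ≤ I ^ m • ⊤ :=
  Submodule.smul_mono_left (Ideal.pow_le_pow_right h)

end Filtration

/-! ### Dickson's relation -/

section Dickson

variable {O : Type*} [CommRing O] {Y : Type*} [AddCommGroup Y] [Module O Y]

theorem dickson_rel (F F' : Module.End O Y) (hFF' : F * F' = 1) (hF'F : F' * F = 1)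
    (T : Set Y) (hFT : ∀ y ∈ T, F y ∈ T) (hF'T : ∀ y ∈ T, F' y ∈ T)
    (c δ : O) (h : ∀ y ∈ T, F y + δ • F' y = c • y) (k : ℕ) :
    ∀ y ∈ T, (F ^ k) y + δ ^ k • (F' ^ k) y = ((dickson 1 δ k).eval c) • y := by
  have hpowT : ∀ (k : ℕ), ∀ y ∈ T, (F ^ k) y ∈ T := by
    intro k
    induction k with
    | zero => intro y hy; simpa using hy
    | succ k ih => intro y hy; rw [pow_succ', Module.End.mul_apply]; exact hFT _ (ih y hy)
  have hpowT' : ∀ (k : ℕ), ∀ y ∈ T, (F' ^ k) y ∈ T := by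
    intro k
    induction k with
    | zero => intro y hy; simpa using hy
    | succ k ih => intro y hy; rw [pow_succ', Module.End.mul_apply]; exact hF'T _ (ih y hy)
  have hF'F_apply : ∀ y : Y, F' (F y) = y := fun y => by
    have := congrArg (fun f : Module.End O Y => f y) hF'F
    simpa using this
  have hFF'_apply : ∀ y : Y, F (F' y) = y := fun y => by
    have := congrArg (fun f : Module.End O Y => f y) hFF'
    simpa using this
  suffices H : ∀ k : ℕ, (∀ y ∈ T, (F ^ k) y + δ ^ k • (F' ^ k) y = ((dickson 1 δ k).eval c) • y) ∧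
      (∀ y ∈ T, (F ^ (k + 1)) y + δ ^ (k + 1) • (F' ^ (k + 1)) y
        = ((dickson 1 δ (k + 1)).eval c) • y) from (H k).1
  intro k
  induction k with
  | zero =>
    refine ⟨fun y _ => ?_, fun y hy => ?_⟩
    · simp only [pow_zero, Module.End.one_apply, one_smul, dickson_zero]
      have : ((3 : O[X]) - ((1 : ℕ) : O[X])).eval c = 2 := by
        simp only [Nat.cast_one, eval_sub, eval_ofNat, eval_one]; norm_num
      rw [this, two_smul]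
    · simp only [zero_add, pow_one, dickson_one, eval_X]
      exact h y hy
  | succ k ih =>
    refine ⟨ih.2, fun y hy => ?_⟩
    have e1 := h _ (hpowT (k + 1) y hy)
    have e2 := h _ (hpowT' (k + 1) y hy)
    have a1 : F ((F ^ (k + 1)) y) = (F ^ (k + 1 + 1)) y := by
      rw [pow_succ' F (k + 1), Module.End.mul_apply]
    have a2 : F' ((F ^ (k + 1)) y) = (F ^ k) y := by
      rw [pow_succ' F k, Module.End.mul_apply, hF'F_apply]
    have a3 : F' ((F' ^ (k + 1)) y) = (F' ^ (k + 1 + 1)) y := by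
      rw [pow_succ' F' (k + 1), Module.End.mul_apply]
    have a4 : F ((F' ^ (k + 1)) y) = (F' ^ k) y := by
      rw [pow_succ' F' k, Module.End.mul_apply, hFF'_apply]
    rw [a1, a2] at e1
    rw [a3, a4] at e2
    have i1 := ih.1 y hy
    have i2 := ih.2 y hy
    rw [dickson_add_two, eval_sub, eval_mul, eval_mul, eval_X, eval_C, sub_smul, mul_smul,
      mul_smul, ← i1, ← i2]
    -- e1 : F^(k+2) y + δ • F^k y = c • F^(k+1) y
    -- e2 : F'^k y + δ • F'^(k+2) y = c • F'^(k+1) y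
    have e1' : (F ^ (k + 1 + 1)) y = c • (F ^ (k + 1)) y - δ • (F ^ k) y :=
      eq_sub_of_add_eq e1
    have e2' : δ • (F' ^ (k + 1 + 1)) y = c • (F' ^ (k + 1)) y - (F' ^ k) y := by
      rw [← e2]; abel
    have e3 : δ ^ (k + 1 + 1) • (F' ^ (k + 1 + 1)) y
        = δ ^ (k + 1) • (c • (F' ^ (k + 1)) y - (F' ^ k) y) := by
      rw [← e2', smul_smul, ← pow_succ]
    rw [e1', e3]
    simp only [smul_sub, smul_add, smul_smul, pow_succ]
    have hc : ∀ (u v : O) (z : Y), (u * v) • z = (v * u) • z := fun u v z => by rw [mul_comm]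
    rw [hc (δ ^ k * δ) c, hc (δ ^ k) δ]
    abel

end Dickson

/-! ### The limit argument -/

section Limit

variable {G : Type*} [Group G] {O : Type*} [CommRing O] (I : Ideal O)
  {Y : Type*} [AddCommGroup Y] [Module O Y]

/-- From approximate relations modulo `I ^ n` (all `n`) to an exact relation. -/
theorem exists_trace_of_approx [IsAdicComplete I O]
    (ρ : G →* Module.End O Y) (x : Y) (d : G →* Oˣ) (c₀ : ℕ)
    (hsep : ∀ y : Y, (∀ n : ℕ, y ∈ (I ^ n • ⊤ : Submodule O Y)) → y = 0)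
    (hprim : ∀ (s : O) (n : ℕ), s • x ∈ (I ^ (n + c₀) • ⊤ : Submodule O Y) → s ∈ I ^ n)
    (happ : ∀ (g : G) (n : ℕ), ∃ s : O, ∀ h : G,
      ρ g (ρ h x) + ((d g : Oˣ) : O) • ρ g⁻¹ (ρ h x) - s • ρ h x
        ∈ (I ^ n • ⊤ : Submodule O Y)) :
    ∃ a : G → O,
      (∀ g h : G, ρ g (ρ h x) + ((d g : Oˣ) : O) • ρ g⁻¹ (ρ h x) = a g • ρ h x) ∧
      ∀ (g : G) (n : ℕ) (s : O),
        ρ g x + ((d g : Oˣ) : O) • ρ g⁻¹ x - s • x ∈ (I ^ (n + c₀) • ⊤ : Submodule O Y) →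
          a g - s ∈ I ^ n := by
  classical
  have hone : ∀ y : Y, ρ (1 : G) y = y := fun y => by rw [map_one]; rfl
  choose s hs using happ
  -- the approximants at `h = 1`
  have hs1 : ∀ g n, ρ g x + ((d g : Oˣ) : O) • ρ g⁻¹ x - s g n • x
      ∈ (I ^ n • ⊤ : Submodule O Y) := by
    intro g n
    have := hs g n 1
    rwa [hone] at this
  -- Cauchy
  have hcauchy : ∀ g : G, ∀ {m n : ℕ}, m ≤ n →
      s g (m + c₀) ≡ s g (n + c₀) [SMOD (I ^ m • ⊤ : Submodule O O)] := by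
    intro g m n hmn
    rw [SModEq.sub_mem, smul_eq_mul, Ideal.mul_top]
    apply hprim
    have h1 := hs1 g (m + c₀)
    have h2 := fil_mono (Y := Y) I (Nat.add_le_add_right hmn c₀) (hs1 g (n + c₀))
    have h3 := sub_mem h2 h1
    have e : (s g (m + c₀) - s g (n + c₀)) • x
        = (ρ g x + ((d g : Oˣ) : O) • ρ g⁻¹ x - s g (n + c₀) • x)
          - (ρ g x + ((d g : Oˣ) : O) • ρ g⁻¹ x - s g (m + c₀) • x) := by
      rw [sub_smul]; abel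
    rw [e]; exact h3
  have hlim : ∀ g : G, ∃ L : O, ∀ n : ℕ, s g (n + c₀) - L ∈ I ^ n := by
    intro g
    obtain ⟨L, hL⟩ := IsPrecomplete.prec (I := I) (M := O) inferInstance
      (f := fun n => s g (n + c₀)) (fun {m n} hmn => hcauchy g hmn)
    refine ⟨L, fun n => ?_⟩
    have := hL n
    rwa [SModEq.sub_mem, smul_eq_mul, Ideal.mul_top] at this
  choose a ha using hlim
  have hE1 : ∀ g h : G, ρ g (ρ h x) + ((d g : Oˣ) : O) • ρ g⁻¹ (ρ h x) = a g • ρ h x := by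
    intro g h
    rw [← sub_eq_zero]
    apply hsep
    intro n
    have h1 := fil_mono (Y := Y) I (Nat.le_add_right n c₀) (hs g (n + c₀) h)
    have h2 : (s g (n + c₀) - a g) • ρ h x ∈ (I ^ n • ⊤ : Submodule O Y) :=
      fil_smul_mem _ (ha g n) _
    have e : ρ g (ρ h x) + ((d g : Oˣ) : O) • ρ g⁻¹ (ρ h x) - a g • ρ h x
        = (ρ g (ρ h x) + ((d g : Oˣ) : O) • ρ g⁻¹ (ρ h x) - s g (n + c₀) • ρ h x)
          + (s g (n + c₀) - a g) • ρ h x := by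
      rw [sub_smul]; abel
    rw [e]; exact add_mem h1 h2
  refine ⟨a, hE1, ?_⟩
  intro g n s' hs'
  apply hprim
  have h1 := hE1 g 1
  rw [hone] at h1
  have e : (a g - s') • x = ρ g x + ((d g : Oˣ) : O) • ρ g⁻¹ x - s' • x := by
    rw [sub_smul, h1]
  rw [e]; exact hs'

end Limit

/-! ### Perturbation by elements acting almost trivially -/

section Perturb

variable {G : Type*} [Group G] {O : Type*} [CommRing O] (J : Ideal O)
  {Y : Type*} [AddCommGroup Y] [Module O Y]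

theorem rel_mul_right_sub_mem (ρ : G →* Module.End O Y) (x : Y) (d : G →* Oˣ) (τ : G)
    (hτ : ∀ h : G, ρ τ (ρ h x) - ρ h x ∈ (J • ⊤ : Submodule O Y))
    (hτ' : ∀ h : G, ρ τ⁻¹ (ρ h x) - ρ h x ∈ (J • ⊤ : Submodule O Y))
    (hdτ : ((d τ : Oˣ) : O) - 1 ∈ J) (g h : G) :
    (ρ (g * τ) (ρ h x) + ((d (g * τ) : Oˣ) : O) • ρ (g * τ)⁻¹ (ρ h x))
      - (ρ g (ρ h x) + ((d g : Oˣ) : O) • ρ g⁻¹ (ρ h x)) ∈ (J • ⊤ : Submodule O Y) := by
  have hmul : ∀ (a b : G) (y : Y), ρ (a * b) y = ρ a (ρ b y) := fun a b y => by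
    rw [map_mul]; rfl
  have e1 : ρ (g * τ) (ρ h x) = ρ g (ρ h x) + ρ g (ρ τ (ρ h x) - ρ h x) := by
    rw [hmul, map_sub]; abel
  have e2 : ρ (g * τ)⁻¹ (ρ h x) = ρ g⁻¹ (ρ h x) + (ρ τ⁻¹ (ρ (g⁻¹ * h) x) - ρ (g⁻¹ * h) x) := by
    rw [mul_inv_rev, hmul τ⁻¹ g⁻¹, ← hmul g⁻¹ h]; abel
  have e3 : ((d (g * τ) : Oˣ) : O) = ((d g : Oˣ) : O) + ((d g : Oˣ) : O) * (((d τ : Oˣ) : O) - 1) := by
    rw [map_mul, Units.val_mul]; ring
  have m1 : ρ g (ρ τ (ρ h x) - ρ h x) ∈ (J • ⊤ : Submodule O Y) := fil_end_mem J _ (hτ h)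
  have m2 : ((d (g * τ) : Oˣ) : O) • (ρ τ⁻¹ (ρ (g⁻¹ * h) x) - ρ (g⁻¹ * h) x)
      ∈ (J • ⊤ : Submodule O Y) := Submodule.smul_mem _ _ (hτ' _)
  have m3 : (((d g : Oˣ) : O) * (((d τ : Oˣ) : O) - 1)) • ρ g⁻¹ (ρ h x)
      ∈ (J • ⊤ : Submodule O Y) := fil_smul_mem J (Ideal.mul_mem_left _ _ hdτ) _
  have e : (ρ (g * τ) (ρ h x) + ((d (g * τ) : Oˣ) : O) • ρ (g * τ)⁻¹ (ρ h x))
      - (ρ g (ρ h x) + ((d g : Oˣ) : O) • ρ g⁻¹ (ρ h x))
      = ρ g (ρ τ (ρ h x) - ρ h x)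
        + ((d (g * τ) : Oˣ) : O) • (ρ τ⁻¹ (ρ (g⁻¹ * h) x) - ρ (g⁻¹ * h) x)
        + (((d g : Oˣ) : O) * (((d τ : Oˣ) : O) - 1)) • ρ g⁻¹ (ρ h x) := by
    rw [e1, e2, smul_add]
    conv_lhs => rw [e3]
    rw [add_smul]
    have : ((d (g * τ) : Oˣ) : O) • (ρ τ⁻¹ (ρ (g⁻¹ * h) x) - ρ (g⁻¹ * h) x)
        = (((d g : Oˣ) : O) + ((d g : Oˣ) : O) * (((d τ : Oˣ) : O) - 1))
          • (ρ τ⁻¹ (ρ (g⁻¹ * h) x) - ρ (g⁻¹ * h) x) := by rw [← e3]
    rw [this]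
    abel
  rw [e]
  exact add_mem (add_mem m1 m2) m3

theorem rel_mul_left_sub_mem (ρ : G →* Module.End O Y) (x : Y) (d : G →* Oˣ) (τ : G)
    (hτ : ∀ h : G, ρ τ (ρ h x) - ρ h x ∈ (J • ⊤ : Submodule O Y))
    (hτ' : ∀ h : G, ρ τ⁻¹ (ρ h x) - ρ h x ∈ (J • ⊤ : Submodule O Y))
    (hdτ : ((d τ : Oˣ) : O) - 1 ∈ J) (g h : G) :
    (ρ (τ * g) (ρ h x) + ((d (τ * g) : Oˣ) : O) • ρ (τ * g)⁻¹ (ρ h x))
      - (ρ g (ρ h x) + ((d g : Oˣ) : O) • ρ g⁻¹ (ρ h x)) ∈ (J • ⊤ : Submodule O Y) := by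
  have hmul : ∀ (a b : G) (y : Y), ρ (a * b) y = ρ a (ρ b y) := fun a b y => by
    rw [map_mul]; rfl
  have e1 : ρ (τ * g) (ρ h x) = ρ g (ρ h x) + (ρ τ (ρ (g * h) x) - ρ (g * h) x) := by
    rw [hmul τ g, ← hmul g h]; abel
  have e2 : ρ (τ * g)⁻¹ (ρ h x) = ρ g⁻¹ (ρ h x) + ρ g⁻¹ (ρ τ⁻¹ (ρ h x) - ρ h x) := by
    rw [mul_inv_rev, hmul g⁻¹ τ⁻¹, map_sub]; abel
  have e3 : ((d (τ * g) : Oˣ) : O) = ((d g : Oˣ) : O) + ((d g : Oˣ) : O) * (((d τ : Oˣ) : O) - 1) := by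
    rw [map_mul, Units.val_mul]; ring
  have m1 : ρ τ (ρ (g * h) x) - ρ (g * h) x ∈ (J • ⊤ : Submodule O Y) := hτ _
  have m2 : ((d (τ * g) : Oˣ) : O) • ρ g⁻¹ (ρ τ⁻¹ (ρ h x) - ρ h x)
      ∈ (J • ⊤ : Submodule O Y) := Submodule.smul_mem _ _ (fil_end_mem J _ (hτ' h))
  have m3 : (((d g : Oˣ) : O) * (((d τ : Oˣ) : O) - 1)) • ρ g⁻¹ (ρ h x)
      ∈ (J • ⊤ : Submodule O Y) := fil_smul_mem J (Ideal.mul_mem_left _ _ hdτ) _
  have e : (ρ (τ * g) (ρ h x) + ((d (τ * g) : Oˣ) : O) • ρ (τ * g)⁻¹ (ρ h x))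
      - (ρ g (ρ h x) + ((d g : Oˣ) : O) • ρ g⁻¹ (ρ h x))
      = (ρ τ (ρ (g * h) x) - ρ (g * h) x)
        + ((d (τ * g) : Oˣ) : O) • ρ g⁻¹ (ρ τ⁻¹ (ρ h x) - ρ h x)
        + (((d g : Oˣ) : O) * (((d τ : Oˣ) : O) - 1)) • ρ g⁻¹ (ρ h x) := by
    rw [e1, e2, smul_add]
    conv_lhs => rw [e3]
    rw [add_smul]
    have : ((d (τ * g) : Oˣ) : O) • ρ g⁻¹ (ρ τ⁻¹ (ρ h x) - ρ h x)
        = (((d g : Oˣ) : O) + ((d g : Oˣ) : O) * (((d τ : Oˣ) : O) - 1))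
          • ρ g⁻¹ (ρ τ⁻¹ (ρ h x) - ρ h x) := by rw [← e3]
    rw [this]
    abel
  rw [e]
  exact add_mem (add_mem m1 m2) m3

end Perturb

/-! ### The relation for all of `G` -/

section Dens

variable {O : Type*} [CommRing O] (I : Ideal O) {Y : Type*} [AddCommGroup Y] [Module O Y]

/-- **(AD) = (E) [REL]**, abstract form: the relation `ρ g + d g • ρ g⁻¹ = a g` on the translates
of a primitive vector `x`, for ALL `g`, from the relation at Frobenius elements (`hfrob`),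
continuity of the action on the translates and of `d` (`hlevel`), and Frobenius density. -/
theorem rel_of_dens [IsAdicComplete I O]
    (ρ : GQ →* Module.End O Y) (x : Y) (d : GQ →* Oˣ) (c : ℕ → O) (Sbad : Finset ℕ) (c₀ : ℕ)
    (hsep : ∀ y : Y, (∀ n : ℕ, y ∈ (I ^ n • ⊤ : Submodule O Y)) → y = 0)
    (hprim : ∀ (s : O) (n : ℕ), s • x ∈ (I ^ (n + c₀) • ⊤ : Submodule O Y) → s ∈ I ^ n)
    (hfrob : ∀ ℓ : ℕ, ℓ.Prime → ℓ ∉ Sbad →
      ∀ A : ValuationSubring (AlgebraicClosure ℚ), A.LiesOverPrime ℓ →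
        ∀ σ : GQ, A.IsFrobeniusAt σ ℓ → ((d σ : Oˣ) : O) = (ℓ : O) ∧
          ∀ h : GQ, ρ σ (ρ h x) + (ℓ : O) • ρ σ⁻¹ (ρ h x) = c ℓ • ρ h x)
    (hlevel : ∀ n : ℕ, ∃ K : IntermediateField ℚ (AlgebraicClosure ℚ), FiniteDimensional ℚ K ∧
      ∀ τ : GQ, (∀ a ∈ K, τ a = a) →
        (∀ h : GQ, ρ τ (ρ h x) - ρ h x ∈ (I ^ n • ⊤ : Submodule O Y)) ∧
          ((d τ : Oˣ) : O) - 1 ∈ I ^ n)
    (hdens : StDens) :
    ∃ a : GQ → O,
      (∀ g h : GQ, ρ g (ρ h x) + ((d g : Oˣ) : O) • ρ g⁻¹ (ρ h x) = a g • ρ h x) ∧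
      (∀ ℓ : ℕ, ℓ.Prime → ℓ ∉ Sbad →
        ∀ A : ValuationSubring (AlgebraicClosure ℚ), A.LiesOverPrime ℓ →
          ∀ σ : GQ, A.IsFrobeniusAt σ ℓ → a σ = c ℓ) ∧
      ∀ n : ℕ, ∃ K : IntermediateField ℚ (AlgebraicClosure ℚ), FiniteDimensional ℚ K ∧
        ∀ τ : GQ, (∀ a ∈ K, τ a = a) →
          (∀ g : GQ, a (τ * g) - a g ∈ I ^ n ∧ a (g * τ) - a g ∈ I ^ n) ∧
            ((d τ : Oˣ) : O) - 1 ∈ I ^ n := by
  classical
  have hone : ∀ y : Y, ρ (1 : GQ) y = y := fun y => by rw [map_one]; rfl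
  have hmul : ∀ (a b : GQ) (y : Y), ρ (a * b) y = ρ a (ρ b y) := fun a b y => by
    rw [map_mul]; rfl
  have hinvfix : ∀ (K : IntermediateField ℚ (AlgebraicClosure ℚ)) (τ : GQ),
      (∀ a ∈ K, τ a = a) → ∀ a ∈ K, τ⁻¹ a = a := by
    intro K τ hτ a ha
    have h1 : τ⁻¹ (τ a) = a := τ.symm_apply_apply a
    rw [hτ a ha] at h1
    exact h1
  -- Step A: approximation by Dickson values
  have happ : ∀ (g : GQ) (n : ℕ), ∃ s : O, ∀ h : GQ,
      ρ g (ρ h x) + ((d g : Oˣ) : O) • ρ g⁻¹ (ρ h x) - s • ρ h x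
        ∈ (I ^ n • ⊤ : Submodule O Y) := by
    intro g n
    obtain ⟨K, hK, hKτ⟩ := hlevel n
    obtain ⟨ℓ, A, σ, k, hℓ, hℓS, hA, hσ, hk⟩ := hdens K hK Sbad g
    obtain ⟨hdσ, hrel⟩ := hfrob ℓ hℓ hℓS A hA σ hσ
    obtain ⟨τ, hτdef⟩ : ∃ τ : GQ, τ = (σ ^ k)⁻¹ * g := ⟨_, rfl⟩
    have hτK : ∀ a ∈ K, τ a = a := by
      intro a ha
      rw [hτdef]
      show (σ ^ k)⁻¹ (g a) = a
      rw [hk a ha]
      exact (σ ^ k).symm_apply_apply a
    have hg : g = σ ^ k * τ := by rw [hτdef]; group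
    have hFF' : ρ σ * ρ σ⁻¹ = 1 := by rw [← map_mul, mul_inv_cancel, map_one]
    have hF'F : ρ σ⁻¹ * ρ σ = 1 := by rw [← map_mul, inv_mul_cancel, map_one]
    have hD := dickson_rel (ρ σ) (ρ σ⁻¹) hFF' hF'F (Set.range fun h : GQ => ρ h x)
      (by rintro _ ⟨h, rfl⟩; exact ⟨σ * h, hmul σ h x⟩)
      (by rintro _ ⟨h, rfl⟩; exact ⟨σ⁻¹ * h, hmul σ⁻¹ h x⟩)
      (c ℓ) (ℓ : O) (by rintro _ ⟨h, rfl⟩; exact hrel h) k
    refine ⟨(dickson 1 (ℓ : O) k).eval (c ℓ), fun h => ?_⟩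
    have hDh := hD (ρ h x) ⟨h, rfl⟩
    have e1 : ρ (σ ^ k) = ρ σ ^ k := map_pow ρ σ k
    have e2 : ρ (σ ^ k)⁻¹ = ρ σ⁻¹ ^ k := by rw [← inv_pow, map_pow]
    have e3 : ((d (σ ^ k) : Oˣ) : O) = (ℓ : O) ^ k := by
      rw [map_pow, Units.val_pow_eq_pow_val, hdσ]
    have hexact : ρ (σ ^ k) (ρ h x) + ((d (σ ^ k) : Oˣ) : O) • ρ (σ ^ k)⁻¹ (ρ h x)
        - (dickson 1 (ℓ : O) k).eval (c ℓ) • ρ h x = 0 := by
      rw [e1, e2, e3, hDh, sub_self]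
    have hpert := rel_mul_right_sub_mem (I ^ n) ρ x d τ (hKτ τ hτK).1
      (hKτ τ⁻¹ (hinvfix K τ hτK)).1 (hKτ τ hτK).2 (σ ^ k) h
    rw [← hg] at hpert
    have e : ρ g (ρ h x) + ((d g : Oˣ) : O) • ρ g⁻¹ (ρ h x)
          - (dickson 1 (ℓ : O) k).eval (c ℓ) • ρ h x
        = ((ρ g (ρ h x) + ((d g : Oˣ) : O) • ρ g⁻¹ (ρ h x))
            - (ρ (σ ^ k) (ρ h x) + ((d (σ ^ k) : Oˣ) : O) • ρ (σ ^ k)⁻¹ (ρ h x)))
          + (ρ (σ ^ k) (ρ h x) + ((d (σ ^ k) : Oˣ) : O) • ρ (σ ^ k)⁻¹ (ρ h x)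
            - (dickson 1 (ℓ : O) k).eval (c ℓ) • ρ h x) := by abel
    rw [e, hexact, add_zero]
    exact hpert
  obtain ⟨a, hE1, hclose⟩ := exists_trace_of_approx I ρ x d c₀ hsep hprim happ
  have hE1x : ∀ g : GQ, ρ g x + ((d g : Oˣ) : O) • ρ g⁻¹ x = a g • x := by
    intro g
    have := hE1 g 1
    rwa [hone] at this
  refine ⟨a, hE1, ?_, ?_⟩
  · -- (E2)
    intro ℓ hℓ hℓS A hA σ hσ
    obtain ⟨hdσ, hrel⟩ := hfrob ℓ hℓ hℓS A hA σ hσ
    have hmem : ∀ n : ℕ, a σ - c ℓ ∈ I ^ n := by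
      intro n
      apply hclose σ n (c ℓ)
      have h1 := hrel 1
      rw [hone] at h1
      rw [hdσ, h1, sub_self]
      exact zero_mem _
    have hH : IsHausdorff I O := inferInstance
    have := hH.haus' (a σ - c ℓ) (fun n => by
      rw [SModEq.zero, smul_eq_mul, Ideal.mul_top]; exact hmem n)
    exact sub_eq_zero.mp this
  · -- (E3)
    intro n
    obtain ⟨K, hK, hKτ⟩ := hlevel (n + c₀)
    refine ⟨K, hK, fun τ hτK => ⟨fun g => ⟨?_, ?_⟩, ?_⟩⟩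
    · apply hclose (τ * g) n (a g)
      have hp := rel_mul_left_sub_mem (I ^ (n + c₀)) ρ x d τ (hKτ τ hτK).1
        (hKτ τ⁻¹ (hinvfix K τ hτK)).1 (hKτ τ hτK).2 g 1
      rw [hone, hE1x g] at hp
      exact hp
    · apply hclose (g * τ) n (a g)
      have hp := rel_mul_right_sub_mem (I ^ (n + c₀)) ρ x d τ (hKτ τ hτK).1
        (hKτ τ⁻¹ (hinvfix K τ hτK)).1 (hKτ τ hτK).2 g 1
      rw [hone, hE1x g] at hp
      exact hp
    · exact Ideal.pow_le_pow_right (Nat.le_add_right n c₀) (hKτ τ hτK).2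

end Dens

end Fermat.Agent.S30x.Rel.H25
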