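import Fermat.Agent.S30x.Rel.H25_Rel
import Fermat.Agent.S30x.Mod.H18_Dvr
import Fermat.Agent.S42x.Dens.H16_Dens

set_option autoImplicit false
set_option linter.style.haveILetI false
set_option synthInstance.maxHeartbeats 400000
set_option maxHeartbeats 400000

open Polynomial

noncomputable section

namespace Fermat.Agent.S30x.Rel.H25

open Fermat.Agent.S42x.Asm (GQ StDens)
open Fermat.Agent.S30x.Mod.H18

/-! ### Completeness for a smaller ideal -/

section Complete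

variable {R : Type*} [CommRing R]

/-- Adic completeness passes to a smaller ideal with cofinal powers. -/
theorem isAdicComplete_of_cofinal (I J : Ideal R) (hJI : J ≤ I)
    (hcof : ∀ n : ℕ, ∃ m : ℕ, n ≤ m ∧ I ^ m ≤ J ^ n) [IsAdicComplete I R] :
    IsAdicComplete J R := by
  have hpow : ∀ n : ℕ, J ^ n ≤ I ^ n := fun n => Ideal.pow_right_mono hJI n
  have hH : IsHausdorff J R := by
    refine ⟨fun x hx => ?_⟩
    refine IsHausdorff.haus' (I := I) x fun n => ?_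
    have h1 := hx n
    rw [SModEq.zero, smul_eq_mul, Ideal.mul_top] at h1 ⊢
    exact hpow n h1
  have hP : IsPrecomplete J R := by
    refine ⟨fun f hf => ?_⟩
    have hf' : ∀ {m n : ℕ}, m ≤ n → f m ≡ f n [SMOD (I ^ m • ⊤ : Submodule R R)] := by
      intro m n hmn
      have h1 := hf hmn
      rw [SModEq.sub_mem, smul_eq_mul, Ideal.mul_top] at h1 ⊢
      exact hpow m h1
    obtain ⟨L, hL⟩ := IsPrecomplete.prec (I := I) (M := R) inferInstance (f := f) hf'
    refine ⟨L, fun n => ?_⟩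
    obtain ⟨m, hnm, hm⟩ := hcof n
    have h1 := hf hnm
    have h2 := hL m
    rw [SModEq.sub_mem, smul_eq_mul, Ideal.mul_top] at h1 h2 ⊢
    have h3 : f m - L ∈ J ^ n := hm h2
    have e : f n - L = (f n - f m) + (f m - L) := by ring
    rw [e]
    exact add_mem h1 h3
  exact { toIsHausdorff := hH, toIsPrecomplete := hP }

/-- In a discrete valuation ring the powers of the maximal ideal are cofinal among the powers of
any non-zero principal ideal. -/
theorem dvr_cofinal [IsDomain R] [IsDiscreteValuationRing R] (π : R) (hπ0 : π ≠ 0) (n : ℕ) :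
    ∃ m : ℕ, n ≤ m ∧ IsLocalRing.maximalIdeal R ^ m ≤ Ideal.span {π} ^ n := by
  obtain ⟨ϖ, hϖ⟩ := IsDiscreteValuationRing.exists_irreducible R
  obtain ⟨e, he⟩ := IsDiscreteValuationRing.associated_pow_irreducible hπ0 hϖ
  refine ⟨e * n + n, Nat.le_add_left n _, ?_⟩
  rw [hϖ.maximalIdeal_eq, Ideal.span_singleton_pow, Ideal.span_singleton_pow,
    Ideal.span_singleton_le_span_singleton]
  have h1 : Associated (π ^ n) ((ϖ ^ e) ^ n) := he.pow_pow
  refine h1.dvd.trans ?_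
  rw [← pow_mul]
  exact pow_dvd_pow ϖ (Nat.le_add_right _ _)

/-- A complete discrete valuation ring is complete for every non-zero principal ideal contained
in the maximal ideal. -/
theorem isAdicComplete_span [IsDomain R] [IsDiscreteValuationRing R]
    [IsAdicComplete (IsLocalRing.maximalIdeal R) R] (π : R)
    (hπ : π ∈ IsLocalRing.maximalIdeal R) (hπ0 : π ≠ 0) :
    IsAdicComplete (Ideal.span {π}) R :=
  isAdicComplete_of_cofinal (IsLocalRing.maximalIdeal R) (Ideal.span {π})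
    ((Ideal.span_singleton_le_iff_mem _).mpr hπ) (dvr_cofinal π hπ0)

end Complete

section Fil

variable {O : Type*} [CommRing O] {M : Type*} [AddCommGroup M] [Module O M]

theorem mem_span_pow_smul_top_iff (π : O) (n : ℕ) (y : M) :
    y ∈ (Ideal.span {π} ^ n • ⊤ : Submodule O M) ↔ ∃ z : M, π ^ n • z = y := by
  rw [Ideal.span_singleton_pow, Submodule.ideal_span_singleton_smul,
    Submodule.mem_smul_pointwise_iff_exists]
  simp

theorem mem_span_pow_iff (π : O) (n : ℕ) (s : O) :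
    s ∈ Ideal.span {π} ^ n ↔ π ^ n ∣ s := by
  rw [Ideal.span_singleton_pow, Ideal.mem_span_singleton]

end Fil

/-! ### The module `M₀` with a group action -/

section Abs

variable {G : Type*} [Group G] (p : ℕ) (J : Type*) [AddCommGroup J] [DistribMulAction G J]
  (O : Type*) [CommRing O]

/-- The action of `G` on `J` by additive endomorphisms. -/
def h25G : G →* AddMonoid.End J := DistribMulAction.toAddMonoidEnd G J

variable {J} in
theorem h25G_apply (g : G) (x : J) : h25G J g x = g • x := rfl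

variable (G) in
/-- The action of `G` on `M₀`. -/
def h25Rho : G →* Module.End O (h18M p J O) :=
  ((h18Psi p J O : AddMonoid.End J →+* Module.End O (h18M p J O)) :
      AddMonoid.End J →* Module.End O (h18M p J O)).comp (h25G J)

theorem h25Rho_apply (g : G) : h25Rho G p J O g = h18Psi p J O (h25G J g) := rfl

variable {p J} in
/-- The vector `x = ∑ j, w j ⊗ κ j` of `M₀`. -/
def h25Vec {r : ℕ} (κ : Fin r → h18Tate p J) (w : Fin r → O) : h18M p J O :=
  ∑ j, h18mk p J O (w j) (κ j)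

variable {p J O}

/-- An endomorphism of `J` commuting with `G` acts on `M₀` commuting with `G`. -/
theorem h25_comm (T : AddMonoid.End J) (hT : ∀ (g : G) (x : J), T (g • x) = g • T x) (h : G)
    (y : h18M p J O) :
    h18Psi p J O T (h25Rho G p J O h y) = h25Rho G p J O h (h18Psi p J O T y) := by
  have e : T * h25G J h = h25G J h * T := by
    refine AddMonoidHom.ext fun x => ?_
    exact hT h x
  have h1 : h18Psi p J O (T * h25G J h) = h18Psi p J O (h25G J h * T) := by rw [e]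
  rw [map_mul, map_mul] at h1
  have h2 := LinearMap.congr_fun h1 y
  rw [Module.End.mul_apply, Module.End.mul_apply] at h2
  rw [h25Rho_apply]
  exact h2

/-- **Eichler–Shimura on `M₀`**: if `σ + ℓ σ⁻¹ = T` on the `p`-power torsion of `J`, then
`σ + ℓ σ⁻¹ = T` on `M₀`. -/
theorem h25_frob (T : AddMonoid.End J) (σ : G) (ℓ : ℕ)
    (hσ : ∀ x : J, (∃ k : ℕ, p ^ k • x = 0) → σ • x + ℓ • σ⁻¹ • x = T x)
    (y : h18M p J O) :
    h25Rho G p J O σ y + (ℓ : O) • h25Rho G p J O σ⁻¹ y = h18Psi p J O T y := by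
  have e : h18Psi p J O (h25G J σ + ℓ • h25G J σ⁻¹) = h18Psi p J O T := by
    refine h18Psi_congr _ _ fun x hx => ?_
    exact hσ x hx
  rw [← e, map_add, map_nsmul, LinearMap.add_apply, LinearMap.smul_apply,
    Nat.cast_smul_eq_nsmul]
  rfl

/-- An element acting trivially on the `p`-power torsion of `J` acts trivially on `M₀`. -/
theorem h25_inertia (τ : G) (hτ : ∀ x : J, (∃ k : ℕ, p ^ k • x = 0) → τ • x = x) :
    h25Rho G p J O τ = 1 := by
  rw [h25Rho_apply, ← map_one (h18Psi p J O)]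
  refine h18Psi_congr _ _ fun x hx => ?_
  exact hτ x hx

/-- Continuity: an element fixing the translates of the `n`-th components moves the translates
of `X` by elements of `pⁿ M₀`. -/
theorem h25_level {r : ℕ} (κ : Fin r → h18Tate p J) (w : Fin r → O) (n : ℕ) (τ : G)
    (hτ : ∀ (h : G) (j : Fin r), τ • h • (κ j : ℕ → J) n = h • (κ j : ℕ → J) n) (h : G) :
    ∃ z : h18M p J O,
      (p : O) ^ n • z = h25Rho G p J O τ (h25Rho G p J O h (h25Vec O κ w))
        - h25Rho G p J O h (h25Vec O κ w) := by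
  have h1 := h18Psi_sum_mem (p := p) (J := J) (O := O) Finset.univ
    (h25G J τ * h25G J h - h25G J h) w κ n
    (fun j _ => by
      show τ • h • (κ j : ℕ → J) n - h • (κ j : ℕ → J) n = 0
      rw [hτ h j, sub_self])
  obtain ⟨z, hz⟩ := h18_mem_div.mp h1
  refine ⟨z, ?_⟩
  rw [hz, map_sub, map_mul]
  rfl

end Abs

/-! ### The relation, for an abstract Galois module `J` -/

section Main

variable (p : ℕ) [Fact p.Prime] {J : Type} [AddCommGroup J] [DistribMulAction GQ J]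
  {O : Type} [CommRing O] [IsDomain O] [IsDiscreteValuationRing O]
  [IsAdicComplete (IsLocalRing.maximalIdeal O) O] [CharZero O]

/-- **(E) [REL]** for an abstract Galois module `J` with Hecke operators `T ℓ`. -/
theorem h25_rel_abs (hpO : (p : O) ∈ IsLocalRing.maximalIdeal O) (d : GQ →* Oˣ)
    (S : Finset ℕ) (T : ℕ → AddMonoid.End J)
    (hTG : ∀ ℓ : ℕ, ℓ.Prime → ℓ ∉ S → ∀ (g : GQ) (x : J), T ℓ (g • x) = g • T ℓ x)
    (hfrobJ : ∀ ℓ : ℕ, ℓ.Prime → ℓ ∉ S →
      ∀ A : ValuationSubring (AlgebraicClosure ℚ), A.LiesOverPrime ℓ →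
        ∀ σ : GQ, A.IsFrobeniusAt σ ℓ → ((d σ : Oˣ) : O) = (ℓ : O) ∧
          ∀ x : J, (∃ k : ℕ, p ^ k • x = 0) → σ • x + ℓ • σ⁻¹ • x = T ℓ x)
    {r : ℕ} (κ : Fin r → h18Tate p J)
    (hind : ∀ c : Fin r → ℤ, ∑ j, c j • (κ j : ℕ → J) 1 = 0 → ∀ j, (p : ℤ) ∣ c j)
    (w : Fin r → O) (hw : ∃ j, IsUnit (w j))
    (hstab : ∀ n : ℕ, ∃ K : IntermediateField ℚ (AlgebraicClosure ℚ),
      FiniteDimensional ℚ K ∧ ∀ τ : GQ, (∀ a ∈ K, τ a = a) →
        (∀ (h : GQ) (j : Fin r), τ • h • (κ j : ℕ → J) n = h • (κ j : ℕ → J) n) ∧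
          ((d τ : Oˣ) : O) - 1 ∈ Ideal.span {(p : O) ^ n})
    (c : ℕ → O) (t : ℕ → Matrix (Fin r) (Fin r) ℤ)
    (hT : ∀ ℓ : ℕ, ℓ.Prime → ℓ ∉ S → ∀ (j : Fin r) (n : ℕ),
      T ℓ ((κ j : ℕ → J) n) = ∑ i, t ℓ i j • (κ i : ℕ → J) n)
    (hc : ∀ ℓ : ℕ, ℓ.Prime → ℓ ∉ S → ∀ i, ∑ j, ((t ℓ i j : ℤ) : O) * w j = c ℓ * w i) :
    ∃ a : GQ → O,
      (∀ s : O, s • h25Vec O κ w = 0 → s = 0) ∧
      (∀ g h : GQ,
        h25Rho GQ p J O g (h25Rho GQ p J O h (h25Vec O κ w))
          + ((d g : Oˣ) : O) • h25Rho GQ p J O g⁻¹ (h25Rho GQ p J O h (h25Vec O κ w))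
          = a g • h25Rho GQ p J O h (h25Vec O κ w)) ∧
      (∀ ℓ : ℕ, ℓ.Prime → ℓ ∉ S →
        ∀ A : ValuationSubring (AlgebraicClosure ℚ), A.LiesOverPrime ℓ →
          ∀ σ : GQ, A.IsFrobeniusAt σ ℓ → a σ = c ℓ) ∧
      ∀ n : ℕ, ∃ K : IntermediateField ℚ (AlgebraicClosure ℚ), FiniteDimensional ℚ K ∧
        ∀ τ : GQ, (∀ x ∈ K, τ x = x) →
          ((d τ : Oˣ) : O) - 1 ∈ IsLocalRing.maximalIdeal O ^ n ∧
            ∀ g : GQ, a (τ * g) - a g ∈ IsLocalRing.maximalIdeal O ^ n := by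
  classical
  have hp : p.Prime := Fact.out
  have hp0 : (p : O) ≠ 0 := Nat.cast_ne_zero.mpr hp.ne_zero
  haveI : IsAdicComplete (Ideal.span {(p : O)}) O := isAdicComplete_span (p : O) hpO hp0
  have hle : Ideal.span {(p : O)} ≤ IsLocalRing.maximalIdeal O :=
    (Ideal.span_singleton_le_iff_mem _).mpr hpO
  -- the eigenvector
  have heig : ∀ ℓ : ℕ, ℓ.Prime → ℓ ∉ S →
      h18Psi p J O (T ℓ) (h25Vec O κ w) = c ℓ • h25Vec O κ w := fun ℓ hℓ hℓS =>
    h18Psi_vec κ w (T ℓ) (t ℓ) (c ℓ) (fun j n => hT ℓ hℓ hℓS j n) (hc ℓ hℓ hℓS)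
  have hsep : ∀ y : h18M p J O,
      (∀ n : ℕ, y ∈ (Ideal.span {(p : O)} ^ n • ⊤ : Submodule O (h18M p J O))) → y = 0 :=
    fun y hy => h18M_sep y fun n => (mem_span_pow_smul_top_iff _ n y).mp (hy n)
  have hprim : ∀ (s : O) (n : ℕ),
      s • h25Vec O κ w ∈ (Ideal.span {(p : O)} ^ (n + 1) • ⊤ : Submodule O (h18M p J O)) →
        s ∈ Ideal.span {(p : O)} ^ n := by
    intro s n hs
    rw [mem_span_pow_iff]
    exact h18_primitive hpO κ hind w hw s n ((mem_span_pow_smul_top_iff _ _ _).mp hs)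
  have hfrob : ∀ ℓ : ℕ, ℓ.Prime → ℓ ∉ S →
      ∀ A : ValuationSubring (AlgebraicClosure ℚ), A.LiesOverPrime ℓ →
        ∀ σ : GQ, A.IsFrobeniusAt σ ℓ → ((d σ : Oˣ) : O) = (ℓ : O) ∧
          ∀ h : GQ, h25Rho GQ p J O σ (h25Rho GQ p J O h (h25Vec O κ w))
            + (ℓ : O) • h25Rho GQ p J O σ⁻¹ (h25Rho GQ p J O h (h25Vec O κ w))
            = c ℓ • h25Rho GQ p J O h (h25Vec O κ w) := by
    intro ℓ hℓ hℓS A hA σ hσ
    obtain ⟨h1, h2⟩ := hfrobJ ℓ hℓ hℓS A hA σ hσ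
    refine ⟨h1, fun h => ?_⟩
    rw [h25_frob (T ℓ) σ ℓ h2, h25_comm (T ℓ) (hTG ℓ hℓ hℓS), heig ℓ hℓ hℓS, map_smul]
  have hlevel : ∀ n : ℕ, ∃ K : IntermediateField ℚ (AlgebraicClosure ℚ),
      FiniteDimensional ℚ K ∧ ∀ τ : GQ, (∀ a ∈ K, τ a = a) →
        (∀ h : GQ, h25Rho GQ p J O τ (h25Rho GQ p J O h (h25Vec O κ w))
            - h25Rho GQ p J O h (h25Vec O κ w)
          ∈ (Ideal.span {(p : O)} ^ n • ⊤ : Submodule O (h18M p J O))) ∧
          ((d τ : Oˣ) : O) - 1 ∈ Ideal.span {(p : O)} ^ n := by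
    intro n
    obtain ⟨K, hK, hKτ⟩ := hstab n
    refine ⟨K, hK, fun τ hτ => ?_⟩
    obtain ⟨h1, h2⟩ := hKτ τ hτ
    refine ⟨fun h => ?_, ?_⟩
    · rw [mem_span_pow_smul_top_iff]
      exact h25_level κ w n τ h1 h
    · rw [Ideal.span_singleton_pow]
      exact h2
  obtain ⟨a, hE1, hE2, hE3⟩ := rel_of_dens (Ideal.span {(p : O)}) (h25Rho GQ p J O)
    (h25Vec O κ w) d c S 1 hsep hprim hfrob hlevel Fermat.Agent.S42x.Dens.H16.stDens
  refine ⟨a, ?_, hE1, hE2, ?_⟩
  · intro s hs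
    rcases h18M_torsionFree hpO s _ hs with h | h
    · exact h
    · exact absurd h (h18_vec_ne_zero' hpO κ hind w hw)
  · intro n
    obtain ⟨K, hK, hKτ⟩ := hE3 n
    refine ⟨K, hK, fun τ hτ => ?_⟩
    obtain ⟨h1, h2⟩ := hKτ τ hτ
    exact ⟨Ideal.pow_right_mono hle n h2, fun g => Ideal.pow_right_mono hle n (h1 g).1⟩

end Main

end Fermat.Agent.S30x.Rel.H25
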